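/-
`Fermat.Agent.S33.KLoc.Abstract` — row 61, STEP K (abstract part): the Kummer-integrality lemma
(K-loc).  Pure commutative algebra, Mathlib only.

Setting: `A ⊆ B` commutative rings (`A : Subring B`), `ϖ ∈ A` regular on `B`,
`A ∩ ϖ B = ϖ A`, `ϖ` in the Jacobson radicals of `A` and of `B`, `lam = ζ_p - 1 = unit * ϖ ^ e₀`
with `1 ≤ e₀`, and on the residue rings `A/ϖ ⊆ B/ϖ`:
 (i)  `b ^ p ∈ A/ϖ → b ∈ A/ϖ`;
 (ii) `b ^ p - b ∈ A/ϖ → b + k ∈ A/ϖ` for some `k` with `ξ = 1 + lam * k`, `ξ ^ p = 1`, `ξ ∈ Z`.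
Conclusion (`Setup.pow_root`): if `r ^ (p ^ n) = u` is a unit of `A` then `ξ * r` lies in the
`ϖ`-adic closure of `A` in `B` for some `ξ ∈ Z` with `ξ ^ (p ^ n) = 1`.
-/
import Mathlib

namespace Fermat.Agent.S33.KLoc.Abstract

/-- Binomial expansion of `(1 + x)^p` for a prime `p`, isolating the linear term and the top
term. -/
theorem one_add_pow_prime_expand {R : Type*} [CommRing R] {p : ℕ} (hp : p.Prime) (x : R) :
    ∃ H : R, (1 + x) ^ p = 1 + x ^ p + (p : R) * x + (p : R) * x ^ 2 * H := by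
  obtain ⟨q, rfl⟩ : ∃ q, p = q + 2 := ⟨p - 2, by have := hp.two_le; omega⟩
  have hdvd : ∀ m, m < q → ∃ d : ℕ, (q + 2).choose (m + 2) = (q + 2) * d := by
    intro m hm
    exact hp.dvd_choose_self (by omega) (by omega)
  choose! d hd using hdvd
  refine ⟨∑ m ∈ Finset.range q, x ^ m * (d m : R), ?_⟩
  rw [add_comm 1 x, add_pow]
  rw [Finset.sum_range_succ, Finset.sum_range_succ', Finset.sum_range_succ']
  have hmid : ∑ m ∈ Finset.range q,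
      x ^ (m + 1 + 1) * 1 ^ (q + 2 - (m + 1 + 1)) * (((q + 2).choose (m + 1 + 1) : ℕ) : R)
      = ((q + 2 : ℕ) : R) * x ^ 2 * ∑ m ∈ Finset.range q, x ^ m * (d m : R) := by
    rw [Finset.mul_sum]
    refine Finset.sum_congr rfl fun m hm => ?_
    rw [hd m (Finset.mem_range.mp hm)]
    push_cast
    ring
  rw [hmid]
  simp
  ring

variable {B : Type*} [CommRing B]

/-- The `ϖ`-adic closure of the subring `A` inside `B`. -/
def cl (A : Subring B) (ϖ : B) : Subring B where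
  carrier := {b | ∀ j : ℕ, ∃ a ∈ A, ∃ w : B, b = a + ϖ ^ j * w}
  mul_mem' := by
    intro x y hx hy j
    obtain ⟨a, ha, w, rfl⟩ := hx j
    obtain ⟨a', ha', w', rfl⟩ := hy j
    exact ⟨a * a', A.mul_mem ha ha', a * w' + w * a' + ϖ ^ j * w * w', by ring⟩
  one_mem' := fun j => ⟨1, A.one_mem, 0, by ring⟩
  add_mem' := by
    intro x y hx hy j
    obtain ⟨a, ha, w, rfl⟩ := hx j
    obtain ⟨a', ha', w', rfl⟩ := hy j
    exact ⟨a + a', A.add_mem ha ha', w + w', by ring⟩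
  zero_mem' := fun j => ⟨0, A.zero_mem, 0, by ring⟩
  neg_mem' := by
    intro x hx j
    obtain ⟨a, ha, w, rfl⟩ := hx j
    exact ⟨-a, A.neg_mem ha, -w, by ring⟩

theorem mem_cl {A : Subring B} {ϖ b : B} :
    b ∈ cl A ϖ ↔ ∀ j : ℕ, ∃ a ∈ A, ∃ w : B, b = a + ϖ ^ j * w := Iff.rfl

theorem le_cl (A : Subring B) (ϖ : B) : A ≤ cl A ϖ :=
  fun a ha _ => ⟨a, ha, 0, by ring⟩

theorem cl_cl_le (A : Subring B) (ϖ : B) : cl (cl A ϖ) ϖ ≤ cl A ϖ := by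
  intro b hb j
  obtain ⟨a, ha, w, rfl⟩ := hb j
  obtain ⟨a', ha', w', rfl⟩ := ha j
  exact ⟨a', ha', w' + w, by ring⟩

/-- The hypotheses of (K-loc). -/
structure Setup (p : ℕ) (A : Subring B) (Z : Submonoid B) (ϖ lam : B) (e₀ : ℕ) : Prop where
  prime : p.Prime
  pi_mem : ϖ ∈ A
  pi_reg : ∀ b : B, ϖ * b = 0 → b = 0
  sat : ∀ b : B, ϖ * b ∈ A → b ∈ A
  jacA : ∀ a ∈ A, ∃ c ∈ A, (1 + ϖ * a) * c = 1
  jacB : ∀ b : B, ∃ c : B, (1 + ϖ * b) * c = 1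
  e₀_pos : 1 ≤ e₀
  lam_eq : ∃ η ∈ A, ∃ η' ∈ A, η * η' = 1 ∧ lam = η * ϖ ^ e₀
  lam_root : (1 + lam) ^ p = 1
  rootp : ∀ b : B, (∃ a ∈ A, ∃ w : B, b ^ p = a + ϖ * w) → ∃ a' ∈ A, ∃ w' : B, b = a' + ϖ * w'
  artin : ∀ b : B, (∃ a ∈ A, ∃ w : B, b ^ p - b = a + ϖ * w) →
    ∃ ξ ∈ Z, ∃ k : B, ξ = 1 + lam * k ∧ ξ ^ p = 1 ∧ ∃ a' ∈ A, ∃ w' : B, b + k = a' + ϖ * w'

namespace Setup

variable {p : ℕ} {A : Subring B} {Z : Submonoid B} {ϖ lam : B} {e₀ : ℕ}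

theorem pow_reg (h : Setup p A Z ϖ lam e₀) (m : ℕ) (b : B) (hb : ϖ ^ m * b = 0) : b = 0 := by
  induction m with
  | zero => simpa using hb
  | succ m ih =>
    apply ih
    apply h.pi_reg
    rw [← hb]; ring

theorem sat_pow (h : Setup p A Z ϖ lam e₀) (m : ℕ) (b : B) (hb : ϖ ^ m * b ∈ A) : b ∈ A := by
  induction m with
  | zero => simpa using hb
  | succ m ih =>
    apply ih
    apply h.sat
    have : ϖ * (ϖ ^ m * b) = ϖ ^ (m + 1) * b := by ring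
    rw [this]; exact hb

theorem lam_mem (h : Setup p A Z ϖ lam e₀) : lam ∈ A := by
  obtain ⟨η, hη, η', hη', hηη', rfl⟩ := h.lam_eq
  exact A.mul_mem hη (A.pow_mem h.pi_mem _)

theorem lam_reg (h : Setup p A Z ϖ lam e₀) (b : B) (hb : lam * b = 0) : b = 0 := by
  obtain ⟨η, hη, η', hη', hηη', rfl⟩ := h.lam_eq
  apply h.pow_reg e₀
  have : ϖ ^ e₀ * b = η' * (η * ϖ ^ e₀ * b) := by
    have : η' * (η * ϖ ^ e₀ * b) = (η * η') * (ϖ ^ e₀ * b) := by ring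
    rw [this, hηη', one_mul]
  rw [this, hb, mul_zero]

/-- `p = - lam^(p-1) * c` with `c ≡ 1 mod lam`, `c ∈ A`. -/
theorem p_eq_lam (h : Setup p A Z ϖ lam e₀) :
    ∃ c ∈ A, ∃ H₀ ∈ A, (p : B) = - lam ^ (p - 1) * c ∧ c = 1 - lam * H₀ * c := by
  have hlam := h.lam_mem
  obtain ⟨H, hH⟩ := one_add_pow_prime_expand h.prime (⟨lam, hlam⟩ : A)
  have hH' := congrArg (fun z : A => (z : B)) hH
  simp only [Subring.coe_add, Subring.coe_mul, Subring.coe_pow, Subring.coe_one,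
    Subring.coe_natCast] at hH'
  rw [h.lam_root] at hH'
  obtain ⟨q, hq⟩ : ∃ q, p = q + 1 := ⟨p - 1, by have := h.prime.two_le; omega⟩
  have hq' : p - 1 = q := by omega
  -- lam * (lam^q + p * (1 + lam * H)) = 0
  have h1 : lam * (lam ^ q + (p : B) * (1 + lam * (H : B))) = 0 := by
    have : lam * (lam ^ q + (p : B) * (1 + lam * (H : B)))
        = (1 + lam ^ p + (p : B) * lam + (p : B) * lam ^ 2 * (H : B)) - 1 := by
      rw [hq]; ring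
    rw [this, ← hH', sub_self]
  have h2 := h.lam_reg _ h1
  -- 1 + lam * H is a unit of A
  obtain ⟨η, hη, η', hη', hηη', hlam_eq⟩ := h.lam_eq
  obtain ⟨f, hf⟩ : ∃ f, e₀ = f + 1 := ⟨e₀ - 1, by have := h.e₀_pos; omega⟩
  have h3 : 1 + lam * (H : B) = 1 + ϖ * (η * ϖ ^ f * (H : B)) := by
    rw [hlam_eq, hf]; ring
  obtain ⟨c, hc, hc1⟩ := h.jacA (η * ϖ ^ f * (H : B))
    (A.mul_mem (A.mul_mem hη (A.pow_mem h.pi_mem _)) H.2)
  rw [← h3] at hc1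
  refine ⟨c, hc, (H : B), H.2, ?_, ?_⟩
  · rw [hq']
    have : (p : B) = (p : B) * ((1 + lam * (H : B)) * c) := by rw [hc1, mul_one]
    rw [this]
    have h4 : (p : B) * (1 + lam * (H : B)) = - lam ^ q := by
      rw [eq_neg_iff_add_eq_zero, add_comm]; exact h2
    rw [← mul_assoc, h4]
  · have : c = (1 + lam * (H : B)) * c - lam * (H : B) * c := by ring
    rw [hc1] at this
    exact this

/-- `p = ε * ϖ^((p-1) e₀)` with `ε` a unit of `A`. -/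
theorem p_eq_pi (h : Setup p A Z ϖ lam e₀) :
    ∃ ε ∈ A, ∃ ε' ∈ A, ε * ε' = 1 ∧ (p : B) = ε * ϖ ^ ((p - 1) * e₀) := by
  obtain ⟨c, hc, H₀, hH₀, hpc, hcc⟩ := h.p_eq_lam
  obtain ⟨η, hη, η', hη', hηη', hlam_eq⟩ := h.lam_eq
  have hlam := h.lam_mem
  refine ⟨- η ^ (p - 1) * c, A.mul_mem (A.neg_mem (A.pow_mem hη _)) hc,
    - η' ^ (p - 1) * (1 + lam * H₀),
    A.mul_mem (A.neg_mem (A.pow_mem hη' _)) (A.add_mem A.one_mem (A.mul_mem hlam hH₀)), ?_, ?_⟩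
  · have h1 : (1 + lam * H₀) * c = 1 := by
      have : (1 + lam * H₀) * c = c + lam * H₀ * c := by ring
      rw [this]; nth_rewrite 1 [hcc]; ring
    have : - η ^ (p - 1) * c * (- η' ^ (p - 1) * (1 + lam * H₀))
        = (η * η') ^ (p - 1) * ((1 + lam * H₀) * c) := by ring
    rw [this, hηη', h1, one_pow, one_mul]
  · rw [hpc, hlam_eq]; ring

/-- The approximant is a unit of `A` as soon as it approximates modulo `ϖ`. -/
theorem approx_isUnit (h : Setup p A Z ϖ lam e₀) {u u' r a w : B} (hu : u ∈ A) (hu' : u' ∈ A)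
    (huu' : u * u' = 1) (hr : r ^ p = u) (ha : a ∈ A) (hraw : r = a + ϖ * w) :
    ∃ a' ∈ A, a * a' = 1 := by
  obtain ⟨q, hq⟩ : ∃ q, p = q + 1 := ⟨p - 1, by have := h.prime.two_le; omega⟩
  obtain ⟨d, hd⟩ := sub_dvd_pow_sub_pow a r p
  rw [hr] at hd
  have h1 : a - r = ϖ * (-w) := by rw [hraw]; ring
  have h2 : ϖ * (-w * d) = a ^ p - u := by rw [hd, h1]; ring
  have h3 : -w * d ∈ A := by
    apply h.sat
    rw [h2]
    exact A.sub_mem (A.pow_mem ha _) hu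
  obtain ⟨c, hc, hc1⟩ := h.jacA (u' * (-w * d)) (A.mul_mem hu' h3)
  have h4 : a ^ p = u * (1 + ϖ * (u' * (-w * d))) := by
    have : u * (1 + ϖ * (u' * (-w * d))) = u + (u * u') * (ϖ * (-w * d)) := by ring
    rw [this, huu', h2]; ring
  refine ⟨a ^ q * (u' * c), A.mul_mem (A.pow_mem ha _) (A.mul_mem hu' hc), ?_⟩
  have : a * (a ^ q * (u' * c)) = a ^ p * (u' * c) := by rw [hq]; ring
  rw [this, h4]
  have : u * (1 + ϖ * (u' * (-w * d))) * (u' * c)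
      = (u * u') * ((1 + ϖ * (u' * (-w * d))) * c) := by ring
  rw [this, huu', hc1, one_mul]

/-- Core step, levels `j < e₀`: the equation is a `p`-th power equation modulo `ϖ`. -/
theorem core_lt (h : Setup p A Z ϖ lam e₀) {j : ℕ} (hj : j < e₀) {v t : B} (hv : v ∈ A)
    (hvt : (1 + ϖ ^ j * t) ^ p = v) : ∃ a' ∈ A, ∃ w' : B, t = a' + ϖ * w' := by
  obtain ⟨ε, hε, ε', hε', hεε', hpε⟩ := h.p_eq_pi
  obtain ⟨q, hq⟩ : ∃ q, p = q + 1 := ⟨p - 1, by have := h.prime.two_le; omega⟩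
  have hq1 : 1 ≤ q := by have := h.prime.two_le; omega
  have hq' : p - 1 = q := by omega
  rw [hq'] at hpε
  obtain ⟨H, hH⟩ := one_add_pow_prime_expand h.prime (ϖ ^ j * t)
  rw [hvt] at hH
  -- exponents: (q+1) j + 1 + d = q e₀ + j
  obtain ⟨d, hd⟩ : ∃ d, q * e₀ = q * j + 1 + d := by
    have h1 : q * (j + 1) ≤ q * e₀ := Nat.mul_le_mul_left q hj
    have h2 : q * j + 1 ≤ q * (j + 1) := by rw [mul_add, mul_one]; omega
    exact ⟨q * e₀ - (q * j + 1), by omega⟩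
  set W : B := ϖ ^ d * (ε * t + ε * ϖ ^ j * t ^ 2 * H) with hW
  have h1 : ϖ ^ (p * j) * (t ^ p + ϖ * W) = v - 1 := by
    rw [hH, hpε, hd, hW, hq]; ring
  have h2 : t ^ p + ϖ * W ∈ A := by
    apply h.sat_pow (p * j)
    rw [h1]
    exact A.sub_mem hv A.one_mem
  exact h.rootp t ⟨_, h2, -W, by ring⟩

/-- Core step, levels `j > e₀`: the equation is linear modulo `ϖ`. -/
theorem core_gt (h : Setup p A Z ϖ lam e₀) {j : ℕ} (hj : e₀ < j) {v t : B} (hv : v ∈ A)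
    (hvt : (1 + ϖ ^ j * t) ^ p = v) : ∃ a' ∈ A, ∃ w' : B, t = a' + ϖ * w' := by
  obtain ⟨ε, hε, ε', hε', hεε', hpε⟩ := h.p_eq_pi
  obtain ⟨q, hq⟩ : ∃ q, p = q + 1 := ⟨p - 1, by have := h.prime.two_le; omega⟩
  have hq1 : 1 ≤ q := by have := h.prime.two_le; omega
  have hq' : p - 1 = q := by omega
  rw [hq'] at hpε
  obtain ⟨H, hH⟩ := one_add_pow_prime_expand h.prime (ϖ ^ j * t)
  rw [hvt] at hH
  obtain ⟨i, hi⟩ : ∃ i, j = i + 1 := ⟨j - 1, by omega⟩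
  -- exponents: q j = q e₀ + 1 + d
  obtain ⟨d, hd⟩ : ∃ d, q * j = q * e₀ + 1 + d := by
    have h1 : q * (e₀ + 1) ≤ q * j := Nat.mul_le_mul_left q hj
    have h2 : q * e₀ + 1 ≤ q * (e₀ + 1) := by rw [mul_add, mul_one]; omega
    exact ⟨q * j - (q * e₀ + 1), by omega⟩
  set W : B := ϖ ^ d * t ^ p + ε * ϖ ^ i * t ^ 2 * H with hW
  have h1 : ϖ ^ (q * e₀ + j) * (ε * t + ϖ * W) = v - 1 := by
    have e1 : ϖ ^ (p * j) = ϖ ^ (q * e₀ + j) * (ϖ * ϖ ^ d) := by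
      rw [hq, add_mul, one_mul, hd]; ring
    have e2 : (ϖ ^ j * t) ^ p = ϖ ^ (p * j) * t ^ p := by rw [mul_pow, ← pow_mul, mul_comm j p]
    rw [hH, e2, e1, hpε, hW]
    have e3 : ϖ ^ j = ϖ * ϖ ^ i := by rw [hi]; ring
    have e4 : ϖ ^ (q * e₀ + j) = ϖ ^ (q * e₀) * ϖ ^ j := by ring
    rw [e4]
    have e5 : (ϖ ^ j * t) ^ 2 = ϖ ^ j * (ϖ * ϖ ^ i) * t ^ 2 := by rw [← e3]; ring
    rw [e5]
    ring
  have h2 : ε * t + ϖ * W ∈ A := by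
    apply h.sat_pow (q * e₀ + j)
    rw [h1]
    exact A.sub_mem hv A.one_mem
  refine ⟨ε' * (ε * t + ϖ * W), A.mul_mem hε' h2, - ε' * W, ?_⟩
  have : ε' * (ε * t + ϖ * W) + ϖ * (-ε' * W) = (ε * ε') * t := by ring
  rw [this, hεε', one_mul]

/-- Core step, level `e₀`: the equation is of Artin–Schreier type modulo `ϖ`. -/
theorem core_eq (h : Setup p A Z ϖ lam e₀) {v t : B} (hv : v ∈ A)
    (hvt : (1 + lam * t) ^ p = v) :
    ∃ ξ ∈ Z, ξ ^ p = 1 ∧ ∃ a' ∈ A, ∃ w' : B, ξ * (1 + lam * t) = 1 + lam * a' + lam * ϖ * w' := by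
  obtain ⟨c, hc, H₀, hH₀, hpc, hcc⟩ := h.p_eq_lam
  obtain ⟨η, hη, η', hη', hηη', hlam_eq⟩ := h.lam_eq
  obtain ⟨q, hq⟩ : ∃ q, p = q + 1 := ⟨p - 1, by have := h.prime.two_le; omega⟩
  have hq' : p - 1 = q := by omega
  rw [hq'] at hpc
  obtain ⟨f, hf⟩ : ∃ f, e₀ = f + 1 := ⟨e₀ - 1, by have := h.e₀_pos; omega⟩
  obtain ⟨H, hH⟩ := one_add_pow_prime_expand h.prime (lam * t)
  rw [hvt] at hH
  set W : B := H₀ * c * t - c * t ^ 2 * H with hW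
  have h0 : v - 1 = lam ^ p * (t ^ p - c * t - c * lam * t ^ 2 * H) := by
    rw [hH, hpc, hq]; ring
  have h1 : lam ^ p * (t ^ p - t + lam * W) = v - 1 := by
    rw [h0, hW]
    have : t ^ p - c * t - c * lam * t ^ 2 * H
        = t ^ p - t + lam * (H₀ * c * t - c * t ^ 2 * H) + (1 - lam * H₀ * c - c) * t := by ring
    rw [this]
    have : 1 - lam * H₀ * c - c = 0 := by rw [sub_eq_zero]; exact hcc.symm
    rw [this, zero_mul, add_zero]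
  have h2 : t ^ p - t + lam * W ∈ A := by
    have h3 : ϖ ^ (e₀ * p) * (η ^ p * (t ^ p - t + lam * W)) = v - 1 := by
      have e0 : lam ^ p = η ^ p * ϖ ^ (e₀ * p) := by rw [hlam_eq, mul_pow, ← pow_mul]
      rw [← h1, e0]; ring
    have h4 : η ^ p * (t ^ p - t + lam * W) ∈ A := by
      apply h.sat_pow (e₀ * p)
      rw [h3]
      exact A.sub_mem hv A.one_mem
    have h5 : t ^ p - t + lam * W = η' ^ p * (η ^ p * (t ^ p - t + lam * W)) := by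
      rw [← mul_assoc, ← mul_pow, mul_comm η' η, hηη', one_pow, one_mul]
    rw [h5]
    exact A.mul_mem (A.pow_mem hη' _) h4
  obtain ⟨ξ, hξZ, k, hξk, hξp, a', ha', w', hw'⟩ :=
    h.artin t ⟨_, h2, - (η * ϖ ^ f * W), by rw [hlam_eq, hf]; ring⟩
  refine ⟨ξ, hξZ, hξp, a', ha', w' * η' * η + η * ϖ ^ f * k * t, ?_⟩
  rw [hξk]
  have e1 : (1 + lam * k) * (1 + lam * t) = 1 + lam * (t + k) + lam * lam * k * t := by ring
  rw [e1, hw']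
  have e2 : lam * lam * k * t = lam * ϖ * (η * ϖ ^ f * k * t) := by
    nth_rewrite 2 [hlam_eq]
    rw [hf]; ring
  rw [e2]
  have e3 : lam * ϖ * (w' * η' * η + η * ϖ ^ f * k * t)
      = (η * η') * (lam * ϖ * w') + lam * ϖ * (η * ϖ ^ f * k * t) := by ring
  rw [e3, hηη']
  ring

/-- One approximation step away from the critical level `e₀`. -/
theorem advance (h : Setup p A Z ϖ lam e₀) {u u' r : B} (hu : u ∈ A) (hu' : u' ∈ A)
    (huu' : u * u' = 1) (hr : r ^ p = u) {j : ℕ} (hj : j ≠ e₀) {a w : B} (ha : a ∈ A)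
    (hainv : ∃ a' ∈ A, a * a' = 1) (hraw : r = a + ϖ ^ j * w) :
    ∃ a₁ ∈ A, (∃ a₁' ∈ A, a₁ * a₁' = 1) ∧ ∃ w₁ : B, r = a₁ + ϖ ^ (j + 1) * w₁ := by
  obtain ⟨a', ha', haa'⟩ := hainv
  have hr1 : r = a * (1 + ϖ ^ j * (a' * w)) := by
    have : a * (1 + ϖ ^ j * (a' * w)) = a + (a * a') * (ϖ ^ j * w) := by ring
    rw [this, haa', one_mul]; exact hraw
  have hv1 : 1 + ϖ ^ j * (a' * w) = a' * r := by
    have : a' * r = (a * a') * (1 + ϖ ^ j * (a' * w)) := by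
      nth_rewrite 1 [hr1]; ring
    rw [this, haa', one_mul]
  have hv : (1 + ϖ ^ j * (a' * w)) ^ p = u * a' ^ p := by
    rw [hv1, mul_pow, hr]; ring
  have hvA : u * a' ^ p ∈ A := A.mul_mem hu (A.pow_mem ha' _)
  obtain ⟨b, hb, w', hw'⟩ : ∃ b ∈ A, ∃ w' : B, a' * w = b + ϖ * w' := by
    rcases lt_or_gt_of_ne hj with hlt | hgt
    · exact h.core_lt hlt hvA hv
    · exact h.core_gt hgt hvA hv
  have hr2 : r = a * (1 + ϖ ^ j * b) + ϖ ^ (j + 1) * (a * w') := by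
    rw [hr1, hw']; ring
  have hmem : a * (1 + ϖ ^ j * b) ∈ A :=
    A.mul_mem ha (A.add_mem A.one_mem (A.mul_mem (A.pow_mem h.pi_mem _) hb))
  refine ⟨a * (1 + ϖ ^ j * b), hmem, ?_, a * w', hr2⟩
  exact h.approx_isUnit hu hu' huu' hr hmem (w := ϖ ^ j * (a * w')) (by rw [hr2]; ring)

/-- The approximation step at the critical level `e₀`, where the root of unity appears. -/
theorem advance_eq (h : Setup p A Z ϖ lam e₀) {u u' r : B} (hu : u ∈ A) (hu' : u' ∈ A)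
    (huu' : u * u' = 1) (hr : r ^ p = u) {a w : B} (ha : a ∈ A)
    (hainv : ∃ a' ∈ A, a * a' = 1) (hraw : r = a + ϖ ^ e₀ * w) :
    ∃ ξ ∈ Z, ξ ^ p = 1 ∧ ∃ a₁ ∈ A, (∃ a₁' ∈ A, a₁ * a₁' = 1) ∧
      ∃ w₁ : B, ξ * r = a₁ + ϖ ^ (e₀ + 1) * w₁ := by
  obtain ⟨a', ha', haa'⟩ := hainv
  obtain ⟨η, hη, η', hη', hηη', hlam_eq⟩ := h.lam_eq
  have hlam := h.lam_mem
  have hpi : ϖ ^ e₀ = η' * lam := by
    rw [hlam_eq]
    have : η' * (η * ϖ ^ e₀) = (η * η') * ϖ ^ e₀ := by ring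
    rw [this, hηη', one_mul]
  have hr1 : r = a * (1 + lam * (a' * η' * w)) := by
    have : a * (1 + lam * (a' * η' * w)) = a + (a * a') * ((η' * lam) * w) := by ring
    rw [this, haa', one_mul, ← hpi]; exact hraw
  have hv1 : 1 + lam * (a' * η' * w) = a' * r := by
    have : a' * r = (a * a') * (1 + lam * (a' * η' * w)) := by
      nth_rewrite 1 [hr1]; ring
    rw [this, haa', one_mul]
  have hv : (1 + lam * (a' * η' * w)) ^ p = u * a' ^ p := by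
    rw [hv1, mul_pow, hr]; ring
  have hvA : u * a' ^ p ∈ A := A.mul_mem hu (A.pow_mem ha' _)
  obtain ⟨ξ, hξZ, hξp, b, hb, w', hw'⟩ := h.core_eq hvA hv
  have hr' : (ξ * r) ^ p = u := by rw [mul_pow, hξp, one_mul, hr]
  have hr2 : ξ * r = a * (1 + lam * b) + ϖ ^ (e₀ + 1) * (η * a * w') := by
    have e1 : ξ * r = a * (ξ * (1 + lam * (a' * η' * w))) := by
      nth_rewrite 1 [hr1]; ring
    rw [e1, hw']
    have e2 : ϖ ^ (e₀ + 1) * (η * a * w') = a * ((η * ϖ ^ e₀) * ϖ * w') := by ring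
    rw [e2, ← hlam_eq]; ring
  have hmem : a * (1 + lam * b) ∈ A :=
    A.mul_mem ha (A.add_mem A.one_mem (A.mul_mem hlam hb))
  refine ⟨ξ, hξZ, hξp, a * (1 + lam * b), hmem, ?_, η * a * w', hr2⟩
  exact h.approx_isUnit hu hu' huu' hr' hmem (w := ϖ ^ e₀ * (η * a * w')) (by rw [hr2]; ring)

/-- **(K-loc), prime exponent, closed form.** If `A` is `ϖ`-adically closed in `B`, `u ∈ Aˣ`
and `r ^ p = u` with `r ∈ B`, then `ξ * r ∈ A` for some `ξ ∈ Z` with `ξ ^ p = 1`. -/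
theorem prime_root (h : Setup p A Z ϖ lam e₀) (hcl : cl A ϖ ≤ A) {u u' r : B} (hu : u ∈ A)
    (hu' : u' ∈ A) (huu' : u * u' = 1) (hr : r ^ p = u) :
    ∃ ξ ∈ Z, ξ ^ p = 1 ∧ ξ * r ∈ A := by
  have ph1 : ∀ j, j ≤ e₀ →
      ∃ a ∈ A, (∃ a' ∈ A, a * a' = 1) ∧ ∃ w : B, r = a + ϖ ^ j * w := by
    intro j
    induction j with
    | zero =>
      intro _
      exact ⟨1, A.one_mem, ⟨1, A.one_mem, one_mul 1⟩, r - 1, by ring⟩
    | succ j ih =>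
      intro hj
      obtain ⟨a, ha, hainv, w, hw⟩ := ih (by omega)
      exact h.advance hu hu' huu' hr (by omega) ha hainv hw
  obtain ⟨a, ha, hainv, w, hw⟩ := ph1 e₀ le_rfl
  obtain ⟨ξ, hξ, hξp, a₁, ha₁, ha₁inv, w₁, hw₁⟩ := h.advance_eq hu hu' huu' hr ha hainv hw
  refine ⟨ξ, hξ, hξp, ?_⟩
  have hr' : (ξ * r) ^ p = u := by rw [mul_pow, hξp, one_mul, hr]
  have ph3 : ∀ j, e₀ + 1 ≤ j →
      ∃ a ∈ A, (∃ a' ∈ A, a * a' = 1) ∧ ∃ w : B, ξ * r = a + ϖ ^ j * w := by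
    intro j hj
    induction j, hj using Nat.le_induction with
    | base => exact ⟨a₁, ha₁, ha₁inv, w₁, hw₁⟩
    | succ j hj ih =>
      obtain ⟨a, ha, hainv, w, hw⟩ := ih
      exact h.advance hu hu' huu' hr' (by omega) ha hainv hw
  apply hcl
  intro j
  obtain ⟨a, ha, -, w, hw⟩ := ph3 (j + (e₀ + 1)) (by omega)
  exact ⟨a, ha, ϖ ^ (e₀ + 1) * w, by rw [hw]; ring⟩

/-- The hypotheses of (K-loc) pass to the `ϖ`-adic closure of `A` in `B`. -/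
theorem closure (h : Setup p A Z ϖ lam e₀) : Setup p (cl A ϖ) Z ϖ lam e₀ where
  prime := h.prime
  pi_mem := le_cl A ϖ h.pi_mem
  pi_reg := h.pi_reg
  sat := by
    intro b hb j
    obtain ⟨a, ha, w, hw⟩ := hb (j + 1)
    have h1 : ϖ * (b - ϖ ^ j * w) = a := by rw [mul_sub, hw]; ring
    have hmem : b - ϖ ^ j * w ∈ A := h.sat _ (by rw [h1]; exact ha)
    exact ⟨b - ϖ ^ j * w, hmem, w, by ring⟩
  jacA := by
    intro a ha
    obtain ⟨c, hc⟩ := h.jacB a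
    refine ⟨c, ?_, hc⟩
    intro j
    obtain ⟨aj, haj, w, hw⟩ := ha j
    obtain ⟨cj, hcj, hcj1⟩ := h.jacA aj haj
    refine ⟨cj, hcj, - (ϖ * c * cj * w), ?_⟩
    calc c = c * ((1 + ϖ * aj) * cj) := by rw [hcj1, mul_one]
      _ = cj * ((1 + ϖ * a) * c) + ϖ ^ j * (-(ϖ * c * cj * w)) := by rw [hw]; ring
      _ = cj + ϖ ^ j * (-(ϖ * c * cj * w)) := by rw [hc, mul_one]
  jacB := h.jacB
  e₀_pos := h.e₀_pos
  lam_eq := by
    obtain ⟨η, hη, η', hη', h1, h2⟩ := h.lam_eq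
    exact ⟨η, le_cl A ϖ hη, η', le_cl A ϖ hη', h1, h2⟩
  lam_root := h.lam_root
  rootp := by
    rintro b ⟨a, ha, w, hw⟩
    obtain ⟨a₁, ha₁, w₁, hw₁⟩ := ha 1
    obtain ⟨a', ha', w', hw'⟩ := h.rootp b ⟨a₁, ha₁, w₁ + w, by rw [hw, hw₁]; ring⟩
    exact ⟨a', le_cl A ϖ ha', w', hw'⟩
  artin := by
    rintro b ⟨a, ha, w, hw⟩
    obtain ⟨a₁, ha₁, w₁, hw₁⟩ := ha 1
    obtain ⟨ξ, hξ, k, hk, hξp, a', ha', w', hw'⟩ :=
      h.artin b ⟨a₁, ha₁, w₁ + w, by rw [hw, hw₁]; ring⟩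
    exact ⟨ξ, hξ, k, hk, hξp, a', le_cl A ϖ ha', w', hw'⟩

/-- **(K-loc), prime exponent.** `u` a unit of the closure of `A`, `r ^ p = u` in `B`: then
`ξ * r` is `ϖ`-adically approximable by elements of `A`, for some `ξ ∈ Z` with `ξ ^ p = 1`. -/
theorem prime_root_cl (h : Setup p A Z ϖ lam e₀) {u u' r : B} (hu : u ∈ cl A ϖ)
    (hu' : u' ∈ cl A ϖ) (huu' : u * u' = 1) (hr : r ^ p = u) :
    ∃ ξ ∈ Z, ξ ^ p = 1 ∧ ξ * r ∈ cl A ϖ :=
  h.closure.prime_root (cl_cl_le A ϖ) hu hu' huu' hr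

/-- **(K-loc), exponent `p ^ n`.** Assume that the elements of `Z` killed by `p ^ i`, `i < n`,
have `p`-th roots in `Z`.  If `u ∈ Aˣ` and `r ^ (p ^ n) = u` with `r ∈ B`, then for some `ξ ∈ Z`
with `ξ ^ (p ^ n) = 1` the element `ξ * r` is `ϖ`-adically approximable by elements of `A`. -/
theorem pow_root (h : Setup p A Z ϖ lam e₀) (n : ℕ)
    (hZ : ∀ i < n, ∀ ξ ∈ Z, ξ ^ (p ^ i) = 1 → ∃ ξ' ∈ Z, ξ' ^ p = ξ)
    {u u' r : B} (hu : u ∈ cl A ϖ) (hu' : u' ∈ cl A ϖ) (huu' : u * u' = 1)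
    (hr : r ^ (p ^ n) = u) :
    ∃ ξ ∈ Z, ξ ^ (p ^ n) = 1 ∧ ξ * r ∈ cl A ϖ := by
  induction n generalizing r with
  | zero =>
    refine ⟨1, Z.one_mem, one_pow _, ?_⟩
    rw [one_mul]
    rw [pow_zero, pow_one] at hr
    rw [hr]; exact hu
  | succ n ih =>
    have hr₁ : (r ^ p) ^ (p ^ n) = u := by rw [← pow_mul, ← pow_succ']; exact hr
    obtain ⟨ξ₁, hξ₁, hξ₁p, hmem₁⟩ :=
      ih (fun i hi => hZ i (Nat.lt_succ_of_lt hi)) hr₁
    obtain ⟨ξ₁', hξ₁', hξ₁'p⟩ := hZ n (Nat.lt_succ_self n) ξ₁ hξ₁ hξ₁p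
    have hs : (ξ₁' * r) ^ p = ξ₁ * r ^ p := by rw [mul_pow, hξ₁'p]
    have hUpow : (ξ₁ * r ^ p) ^ (p ^ n) = u := by rw [mul_pow, hξ₁p, one_mul, hr₁]
    obtain ⟨m, hm⟩ : ∃ m, p ^ n = m + 1 :=
      ⟨p ^ n - 1, by have := Nat.pos_of_ne_zero (pow_ne_zero n h.prime.ne_zero); omega⟩
    have hUinv : (ξ₁ * r ^ p) * ((ξ₁ * r ^ p) ^ m * u') = 1 := by
      have : (ξ₁ * r ^ p) * ((ξ₁ * r ^ p) ^ m * u') = (ξ₁ * r ^ p) ^ (m + 1) * u' := by ring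
      rw [this, ← hm, hUpow, huu']
    obtain ⟨ξ₂, hξ₂, hξ₂p, hmem₂⟩ := h.prime_root_cl hmem₁
      ((cl A ϖ).mul_mem ((cl A ϖ).pow_mem hmem₁ _) hu') hUinv hs
    refine ⟨ξ₂ * ξ₁', Z.mul_mem hξ₂ hξ₁', ?_, ?_⟩
    · rw [mul_pow, pow_succ', pow_mul, pow_mul, hξ₂p, hξ₁'p, one_pow, one_mul, hξ₁p]
    · rw [mul_assoc]; exact hmem₂

/-- `pow_root` for a unit `u` of `A` itself, with the conclusion spelled out. -/
theorem pow_root_approx (h : Setup p A Z ϖ lam e₀) (n : ℕ)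
    (hZ : ∀ i < n, ∀ ξ ∈ Z, ξ ^ (p ^ i) = 1 → ∃ ξ' ∈ Z, ξ' ^ p = ξ)
    {u u' r : B} (hu : u ∈ A) (hu' : u' ∈ A) (huu' : u * u' = 1) (hr : r ^ (p ^ n) = u) :
    ∃ ξ ∈ Z, ξ ^ (p ^ n) = 1 ∧ ∀ j : ℕ, ∃ a ∈ A, ∃ w : B, ξ * r = a + ϖ ^ j * w :=
  h.pow_root n hZ (le_cl A ϖ hu) (le_cl A ϖ hu') huu' hr

end Setup

end Fermat.Agent.S33.KLoc.Abstract
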