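/-
`Fermat.Agent.S33.KLoc.CycloConst` — row 61, STEP K: the cyclotomic CONSTANTS needed to discharge
the Artin–Schreier hypothesis `KummerLoc.Hyp.AS` at a node (Mathlib + `KLoc/Abstract` only).

`O` a commutative ring, `ϖ` regular, `ζ ^ p = 1`, `ζ - 1 = lam0 * ϖ ^ j₀` (`lam0` regular, `1 ≤ j₀`),
`(p : O) = υ * ϖ ^ ((p - 1) * j₀)`.  Then
* (c1) `lam0 ^ (p - 1) + υ ∈ ϖ O`                                  (`lam0_pow_add`);
* (c2) `ζ ^ i = 1 + ϖ ^ j₀ * d`, `d = i * lam0 + ϖ * c`            (`zeta_pow_eq`);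
* (c3) in a field of characteristic `p`, the roots of `X ^ p - l ^ (p - 1) * X` (`l ≠ 0`) are the
  `i * l`, `i < p`                                                   (`eq_natCast_mul_of_pow_eq`).
-/
import Fermat.Agent.S33.KLoc.Abstract

namespace Fermat.Agent.S33.KLoc.CycloConst

open Fermat.Agent.S33.KLoc.Abstract

section Ring

variable {O : Type*} [CommRing O]

theorem pow_reg {ϖ : O} (hreg : ∀ b : O, ϖ * b = 0 → b = 0) (m : ℕ) (b : O)
    (hb : ϖ ^ m * b = 0) : b = 0 := by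
  induction m with
  | zero => simpa using hb
  | succ m ih =>
    apply ih
    apply hreg
    rw [← hb]; ring

/-- (c1) **The cyclotomic congruence**: `lam0 ^ (p - 1) ≡ - υ mod ϖ`. -/
theorem lam0_pow_add {p : ℕ} (hp : p.Prime) {ϖ ζ lam0 υ : O} {j₀ : ℕ} (hj₀ : 1 ≤ j₀)
    (hreg : ∀ b : O, ϖ * b = 0 → b = 0) (hlam0 : ∀ b : O, lam0 * b = 0 → b = 0)
    (hζ : ζ ^ p = 1) (hlam : ζ - 1 = lam0 * ϖ ^ j₀)
    (hpυ : (p : O) = υ * ϖ ^ ((p - 1) * j₀)) :
    ∃ c : O, lam0 ^ (p - 1) + υ = ϖ * c := by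
  obtain ⟨q, hq⟩ : ∃ q, p = q + 1 := ⟨p - 1, by have := hp.two_le; omega⟩
  have hq' : p - 1 = q := by omega
  obtain ⟨f, hf⟩ : ∃ f, j₀ = f + 1 := ⟨j₀ - 1, by omega⟩
  rw [hq'] at hpυ ⊢
  obtain ⟨H, hH⟩ := one_add_pow_prime_expand hp (ζ - 1)
  have hζ' : (1 + (ζ - 1)) ^ p = 1 := by rw [add_sub_cancel, hζ]
  rw [hζ'] at hH
  -- (ζ-1) * ((ζ-1)^q + p (1 + (ζ-1) H)) = 0
  have h1 : (ζ - 1) * ((ζ - 1) ^ q + (p : O) * (1 + (ζ - 1) * H)) = 0 := by
    have : (ζ - 1) * ((ζ - 1) ^ q + (p : O) * (1 + (ζ - 1) * H))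
        = (1 + (ζ - 1) ^ p + (p : O) * (ζ - 1) + (p : O) * (ζ - 1) ^ 2 * H) - 1 := by
      rw [hq]; ring
    rw [this, ← hH, sub_self]
  have h2 : (ζ - 1) ^ q + (p : O) * (1 + (ζ - 1) * H) = 0 := by
    rw [hlam, mul_assoc] at h1
    have h3 := hlam0 _ h1
    have h4 := pow_reg hreg j₀ _ h3
    rw [hlam]; exact h4
  rw [hlam, hpυ, mul_pow, ← pow_mul] at h2
  have h5 : ϖ ^ (q * j₀) * (lam0 ^ q + υ * (1 + lam0 * ϖ ^ j₀ * H)) = 0 := by
    rw [← h2, mul_comm j₀ q]; ring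
  have h6 := pow_reg hreg _ _ h5
  refine ⟨-(υ * lam0 * ϖ ^ f * H), ?_⟩
  have : lam0 ^ q + υ = (lam0 ^ q + υ * (1 + lam0 * ϖ ^ j₀ * H)) - υ * lam0 * ϖ ^ j₀ * H := by ring
  rw [this, h6, hf]; ring

/-- (c2) `ζ ^ i = 1 + ϖ ^ j₀ * d` with `d ≡ i * lam0 mod ϖ`. -/
theorem zeta_pow_eq {ϖ ζ lam0 : O} {j₀ : ℕ} (hj₀ : 1 ≤ j₀) (hlam : ζ - 1 = lam0 * ϖ ^ j₀)
    (i : ℕ) : ∃ d c : O, ζ ^ i = 1 + ϖ ^ j₀ * d ∧ d = (i : O) * lam0 + ϖ * c := by
  obtain ⟨f, hf⟩ : ∃ f, j₀ = f + 1 := ⟨j₀ - 1, by omega⟩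
  have hζ : ζ = 1 + lam0 * ϖ ^ j₀ := by rw [← hlam]; ring
  induction i with
  | zero => exact ⟨0, 0, by simp, by simp⟩
  | succ i ih =>
    obtain ⟨d, c, hd, hc⟩ := ih
    refine ⟨d + lam0 + lam0 * ϖ ^ j₀ * d, c + lam0 * ϖ ^ f * d, ?_, ?_⟩
    · rw [pow_succ, hd]
      nth_rewrite 1 [hζ]
      ring
    · rw [hc, hf]; push_cast; ring

end Ring

section Field

variable {k : Type*} [Field k]

/-- In characteristic `p`, the fixed points of Frobenius are the prime field. -/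
theorem eq_natCast_of_pow_eq (p : ℕ) [hp : Fact p.Prime] [CharP k p] {x : k} (hx : x ^ p = x) :
    ∃ i : ℕ, i < p ∧ x = (i : k) := by
  classical
  by_contra hne
  push Not at hne
  set f : Polynomial k := Polynomial.X ^ p - Polynomial.X with hf
  have hp1 : 1 < p := hp.out.one_lt
  have hdeg : f.natDegree = p := by
    rw [hf]; exact FiniteField.X_pow_card_sub_X_natDegree_eq k hp1
  have hf0 : f ≠ 0 := by
    intro h0
    rw [h0, Polynomial.natDegree_zero] at hdeg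
    omega
  set S : Finset k := (Finset.range p).image (fun i : ℕ => (i : k)) with hS
  have hScard : S.card = p := by
    rw [hS, Finset.card_image_of_injOn, Finset.card_range]
    intro a ha b hb hab
    exact CharP.natCast_injOn_Iio k p (by simpa using ha) (by simpa using hb) hab
  have hroot : ∀ y ∈ insert x S, y ∈ f.roots.toFinset := by
    intro y hy
    rw [Multiset.mem_toFinset, Polynomial.mem_roots hf0, Polynomial.IsRoot, hf]
    simp only [Polynomial.eval_sub, Polynomial.eval_pow, Polynomial.eval_X]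
    rcases Finset.mem_insert.1 hy with rfl | hy
    · rw [hx, sub_self]
    · obtain ⟨i, -, rfl⟩ := Finset.mem_image.1 hy
      rw [sub_eq_zero]
      have h := congrArg (ZMod.castHom (dvd_refl p) k) (ZMod.pow_card (i : ZMod p))
      rw [map_pow, map_natCast] at h
      exact h
  have hxS : x ∉ S := by
    intro hxS
    obtain ⟨i, hi, rfl⟩ := Finset.mem_image.1 hxS
    exact hne i (Finset.mem_range.1 hi) rfl
  have hcard : (insert x S).card ≤ f.roots.toFinset.card := Finset.card_le_card hroot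
  rw [Finset.card_insert_of_notMem hxS, hScard] at hcard
  have h3 : f.roots.toFinset.card ≤ p := by
    calc f.roots.toFinset.card ≤ Multiset.card f.roots := Multiset.toFinset_card_le _
      _ ≤ f.natDegree := Polynomial.card_roots' f
      _ = p := hdeg
  omega

/-- (c3) In a field of characteristic `p`, `δ ^ p = l ^ (p - 1) * δ` with `l ≠ 0` forces
`δ = i * l` for some `i < p`. -/
theorem eq_natCast_mul_of_pow_eq (p : ℕ) [hp : Fact p.Prime] [CharP k p] {δ l : k} (hl : l ≠ 0)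
    (hδ : δ ^ p = l ^ (p - 1) * δ) : ∃ i : ℕ, i < p ∧ δ = (i : k) * l := by
  obtain ⟨q, hq⟩ : ∃ q, p = q + 1 := ⟨p - 1, by have := hp.out.two_le; omega⟩
  have hq' : p - 1 = q := by omega
  rw [hq'] at hδ
  have hx : (δ / l) ^ p = δ / l := by
    rw [div_pow, hδ, hq, pow_succ]
    field_simp
  obtain ⟨i, hi, hxi⟩ := eq_natCast_of_pow_eq p hx
  refine ⟨i, hi, ?_⟩
  rw [← hxi]; field_simp

end Field

section Combined

variable {O k : Type*} [CommRing O] [Field k]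

/-- **One-stop lemma for the node instance of `Hyp.AS`.**  `φ : O → k` kills `ϖ`, `k` a field of
characteristic `p`, `φ lam0 ≠ 0`.  Every root `δ ∈ k` of `X ^ p + φ υ * X` is the residue of
`d = (ζ ^ i - 1) / ϖ ^ j₀` for some `i < p`. -/
theorem exists_zeta_pow_of_AS (p : ℕ) [hp : Fact p.Prime] [CharP k p] (φ : O →+* k)
    {ϖ ζ lam0 υ : O} {j₀ : ℕ} (hj₀ : 1 ≤ j₀)
    (hreg : ∀ b : O, ϖ * b = 0 → b = 0) (hlam0 : ∀ b : O, lam0 * b = 0 → b = 0)
    (hζ : ζ ^ p = 1) (hlam : ζ - 1 = lam0 * ϖ ^ j₀)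
    (hpυ : (p : O) = υ * ϖ ^ ((p - 1) * j₀)) (hϖ : φ ϖ = 0) (hl : φ lam0 ≠ 0)
    {δ : k} (hδ : δ ^ p + φ υ * δ = 0) :
    ∃ i : ℕ, i < p ∧ ∃ d : O, ζ ^ i = 1 + ϖ ^ j₀ * d ∧ φ d = δ := by
  obtain ⟨c, hc⟩ := lam0_pow_add hp.out hj₀ hreg hlam0 hζ hlam hpυ
  have hυ : φ υ = - (φ lam0) ^ (p - 1) := by
    have := congrArg φ hc
    rw [map_add, map_pow, map_mul, hϖ, zero_mul] at this
    rw [eq_neg_iff_add_eq_zero, add_comm]; exact this
  have hδ' : δ ^ p = (φ lam0) ^ (p - 1) * δ := by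
    rw [hυ] at hδ
    have : δ ^ p = (δ ^ p + -(φ lam0) ^ (p - 1) * δ) + (φ lam0) ^ (p - 1) * δ := by ring
    rw [this, hδ, zero_add]
  obtain ⟨i, hi, hδi⟩ := eq_natCast_mul_of_pow_eq p hl hδ'
  obtain ⟨d, c', hd, hdc⟩ := zeta_pow_eq hj₀ hlam i
  refine ⟨i, hi, d, hd, ?_⟩
  rw [hdc, map_add, map_mul, map_mul, hϖ, zero_mul, add_zero, map_natCast, hδi]

end Combined

end Fermat.Agent.S33.KLoc.CycloConst
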